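/-
S25 / block Z2: calculus of pullbacks of sheaves of modules up to isomorphism.
Owner: helper285.
-/
import Fermat.Agent.S25.GeomSpec

set_option autoImplicit false

universe u

open CategoryTheory CategoryTheory.Limits AlgebraicGeometry AlgebraicGeometry.RelPicard
  NeronModelInfra

namespace Fermat.Agent.S25.Z2

/-- `pb f L = f^* L`. -/
noncomputable abbrev pb {X Y : Scheme.{u}} (f : X ⟶ Y) (L : Y.Modules) : X.Modules :=
  (Scheme.Modules.pullback f).obj L

/-- the structure sheaf as a module -/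
noncomputable abbrev 𝒪 (X : Scheme.{u}) : X.Modules := SheafOfModules.unit X.ringCatSheaf

variable {X Y Z W : Scheme.{u}}

theorem pb_comp (f : X ⟶ Y) (g : Y ⟶ Z) (L : Z.Modules) :
    Nonempty (pb f (pb g L) ≅ pb (f ≫ g) L) :=
  ⟨(Scheme.Modules.pullbackComp _ _).app L⟩

theorem pb_congr {f g : X ⟶ Y} (h : f = g) (L : Y.Modules) : Nonempty (pb f L ≅ pb g L) :=
  ⟨(Scheme.Modules.pullbackCongr h).app L⟩

theorem pb_map (f : X ⟶ Y) {L L' : Y.Modules} (h : Nonempty (L ≅ L')) :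
    Nonempty (pb f L ≅ pb f L') :=
  ⟨(Scheme.Modules.pullback f).mapIso h.some⟩

theorem pb_unit (f : X ⟶ Y) : Nonempty (pb f (𝒪 Y) ≅ 𝒪 X) :=
  ⟨Scheme.Modules.pullbackUnitIso f⟩

theorem iso_symm {L L' : X.Modules} (h : Nonempty (L ≅ L')) : Nonempty (L' ≅ L) :=
  ⟨h.some.symm⟩

theorem iso_trans {L L' L'' : X.Modules} (h : Nonempty (L ≅ L')) (h' : Nonempty (L' ≅ L'')) :
    Nonempty (L ≅ L'') :=
  ⟨h.some ≪≫ h'.some⟩

/-- pullback along the two sides of a commutative square -/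
theorem pb_square {f : X ⟶ Y} {g : Y ⟶ W} {f' : X ⟶ Z} {g' : Z ⟶ W} (h : f ≫ g = f' ≫ g')
    (L : W.Modules) : Nonempty (pb f (pb g L) ≅ pb f' (pb g' L)) :=
  iso_trans (pb_comp f g L) (iso_trans (pb_congr h L) (iso_symm (pb_comp f' g' L)))

/-- pullback along a commutative triangle -/
theorem pb_triangle {f : X ⟶ Y} {g : Y ⟶ W} {e : X ⟶ W} (h : f ≫ g = e)
    (L : W.Modules) : Nonempty (pb f (pb g L) ≅ pb e L) :=
  iso_trans (pb_comp f g L) (pb_congr h L)

theorem pb_isInvertible (f : X ⟶ Y) {L : Y.Modules} (h : Scheme.Modules.IsInvertible L) :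
    Scheme.Modules.IsInvertible (pb f L) := h.pullback f

end Fermat.Agent.S25.Z2
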