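/-
S25 / block Z2, node Z2-A: morphisms between affine schemes over `Spec k` are algebra maps.
-/
import Fermat.Agent.S25.Z.AlgEquiv.Pb

set_option autoImplicit false

universe u

open CategoryTheory CategoryTheory.Limits AlgebraicGeometry AlgebraicGeometry.RelPicard
  NeronModelInfra GoodReductionJacobian
open scoped TensorProduct

namespace Fermat.Agent.S25.Z2

open Triple

variable {k : Type u} [Field k]

/-- every morphism `Spec R ⟶ Spec k` is the structure morphism of a `k`-algebra structure -/
theorem exists_algebra_of_hom (R : Type u) [CommRing R]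
    (f : Spec (CommRingCat.of R) ⟶ Spec (CommRingCat.of k)) :
    ∃ inst : Algebra k R, @sp k _ R _ inst = f := by
  obtain ⟨φ, rfl⟩ := Spec.map_surjective f
  exact ⟨φ.hom.toAlgebra, rfl⟩

/-- same, starting from a bare morphism -/
theorem exists_affHom' {A A' : Type u} [CommRing A] [Algebra k A] [CommRing A'] [Algebra k A']
    (q : Spec (CommRingCat.of A') ⟶ Spec (CommRingCat.of A)) (hq : q ≫ sp k A = sp k A') :
    ∃ φ : A →ₐ[k] A', (affHom φ).1 = q := by
  obtain ⟨ψ, rfl⟩ := Spec.map_surjective q
  rw [← Spec.map_comp] at hq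
  have h := Spec.map_injective hq
  have h2 : ∀ r : k, ψ.hom (algebraMap k A r) = algebraMap k A' r := by
    intro r
    have := congrArg (fun g => g.hom r) h
    simpa using this
  exact ⟨{ ψ.hom with commutes' := h2 }, rfl⟩

/-- every morphism over `Spec k` between affine schemes comes from an algebra homomorphism -/
theorem exists_affHom {A A' : Type u} [CommRing A] [Algebra k A] [CommRing A'] [Algebra k A']
    (ψ : SchemeHomOver (sp k A') (sp k A)) : ∃ φ : A →ₐ[k] A', affHom φ = ψ := by
  obtain ⟨φ, hφ⟩ := exists_affHom' ψ.1 ψ.2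
  exact ⟨φ, Subtype.ext hφ⟩

/-- a morphism `Spec K ⟶ Spec A` gives `K` a `k`-algebra structure making it an `affHom` -/
theorem exists_algebra_affHom {A : Type u} [CommRing A] [Algebra k A] (K : Type u) [CommRing K]
    (s : Spec (CommRingCat.of K) ⟶ Spec (CommRingCat.of A)) :
    ∃ (inst : Algebra k K) (φ : A →ₐ[k] K), (affHom φ).1 = s := by
  obtain ⟨inst, hinst⟩ := exists_algebra_of_hom (k := k) K (s ≫ sp k A)
  obtain ⟨φ, hφ⟩ := @exists_affHom' k _ A K _ _ _ inst s hinst.symm
  exact ⟨inst, φ, hφ⟩

end Fermat.Agent.S25.Z2
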