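/-
S25 / block Z2, node Z2-B: constancy of the Euler characteristic over connected bases and under
extension of the base field; the unit triple is an object of `Pic⁰`.
-/
import Fermat.Agent.S25.AlgSpec
import Fermat.Agent.S25.Triple.IsoLemmas
import Fermat.Agent.S25.Triple.BCLemmas
import Fermat.Agent.S25.Triple.QC

set_option autoImplicit false

universe u

open scoped TensorProduct

namespace Fermat.Agent.S25.Z2

open Triple

variable {k : Type u} [Field k] {𝔠 : CurveCharts k} (S : AlgSpec 𝔠)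

include S in
/-- in a family over a connected base the Euler characteristic of the fibres is constant -/
theorem chi_eq_of_preconnected {R : Type u} [CommRing R] [Algebra k R]
    [PreconnectedSpace (PrimeSpectrum R)] (T : Triple 𝔠 R) (hT : T.IsInvertible)
    {K₀ K₁ : Type u} [Field K₀] [Algebra k K₀] [Field K₁] [Algebra k K₁]
    (φ₀ : R →ₐ[k] K₀) (φ₁ : R →ₐ[k] K₁) (T₀ : Triple 𝔠 K₀) (T₁ : Triple 𝔠 K₁)
    (h₀ : IsBC φ₀ T T₀) (h₁ : IsBC φ₁ T T₁) : T₀.chi = T₁.chi := by
  obtain ⟨f, hf, hf'⟩ := S.chi_locConst R T hT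
  rw [hf' K₀ φ₀ T₀ h₀, hf' K₁ φ₁ T₁ h₁]
  exact hf.apply_eq_of_preconnectedSpace _ _

include S in
/-- the Euler characteristic is invariant under extension of the base field -/
theorem chi_eq_of_field {K K' : Type u} [Field K] [Algebra k K] [Field K'] [Algebra k K']
    (ι : K →ₐ[k] K') (T : Triple 𝔠 K) (hT : T.IsInvertible) (T' : Triple 𝔠 K')
    (h : IsBC ι T T') : T'.chi = T.chi :=
  chi_eq_of_preconnected S T hT ι (AlgHom.id k K) T' T h ⟨BaseChange.id T⟩

include S in
theorem chi_unit (K : Type u) [Field K] [Algebra k K] :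
    (Triple.unit 𝔠 K).chi = (Triple.unit 𝔠 k).chi :=
  chi_eq_of_field S (Algebra.ofId k K) (Triple.unit 𝔠 k) unit_isInvertible (Triple.unit 𝔠 K)
    ⟨BaseChange.unit _⟩

include S in
theorem unit_isPic0 (A : Type u) [CommRing A] [Algebra k A] : (Triple.unit 𝔠 A).IsPic0 where
  inv := unit_isInvertible
  rigid := unit_isRigid
  deg0 := by
    intro K _ _ φ TK h
    obtain ⟨e⟩ := S.bc_unique A K φ (Triple.unit 𝔠 A) TK (Triple.unit 𝔠 K) h ⟨BaseChange.unit φ⟩
    exact e.chi_eq

end Fermat.Agent.S25.Z2
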