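/-
S25 / block Z2, node Z2-C: formal consequences of the Dictionary.
-/
import Fermat.Agent.S25.Z.AlgEquiv.Pb
import Fermat.Agent.S25.Z.AlgEquiv.Chi

set_option autoImplicit false

universe u

open CategoryTheory CategoryTheory.Limits AlgebraicGeometry AlgebraicGeometry.RelPicard
  NeronModelInfra GoodReductionJacobian
open scoped TensorProduct

namespace Fermat.Agent.S25.Z2

open Triple

variable {k : Type u} [Field k]

variable {C : Scheme.{u}} {c : C ⟶ Spec (CommRingCat.of k)}
  {ε : SchemeHomOver (𝟙 (Spec (CommRingCat.of k))) c} {G : GeomCharts c ε} (D : Dictionary G)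
  (S : AlgSpec G.𝔠)

/-- `sec` respects isomorphisms (for invertible sheaves), so `chi ∘ sec` does -/
theorem chi_sec_congr {K : Type u} [Field K] [Algebra k K] {L L' : (pullback c (sp k K)).Modules}
    (hL : Scheme.Modules.IsInvertible L) (hL' : Scheme.Modules.IsInvertible L')
    (e : Nonempty (L ≅ L')) : (D.sec K L).chi = (D.sec K L').chi := by
  obtain ⟨e'⟩ := (D.iso_iff K L L' hL hL').1 e
  exact e'.chi_eq

theorem chi_sec_unit (K : Type u) [Field K] [Algebra k K] :
    (D.sec K (𝒪 _)).chi = (Triple.unit G.𝔠 K).chi := by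
  obtain ⟨e'⟩ := D.unit K
  exact e'.chi_eq

include S in
/-- two invertible sheaves over `A'` whose triples are base changes of the same triple are
isomorphic -/
theorem iso_of_isBC {A A' : Type u} [CommRing A] [Algebra k A] [CommRing A'] [Algebra k A']
    (φ : A →ₐ[k] A') (T : Triple G.𝔠 A) {L L' : (pullback c (sp k A')).Modules}
    (hL : Scheme.Modules.IsInvertible L) (hL' : Scheme.Modules.IsInvertible L')
    (h : IsBC φ T (D.sec A' L)) (h' : IsBC φ T (D.sec A' L')) : Nonempty (L ≅ L') :=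
  (D.iso_iff A' L L' hL hL').2 (S.bc_unique A A' φ T _ _ h h')

include S in
/-- affine family lemma -/
theorem chi_family_affine {R : Type u} [CommRing R] [Algebra k R]
    [PreconnectedSpace (PrimeSpectrum R)] (N : (pullback c (sp k R)).Modules)
    (hN : Scheme.Modules.IsInvertible N)
    {K₀ K₁ : Type u} [Field K₀] [Algebra k K₀] [Field K₁] [Algebra k K₁]
    (φ₀ : R →ₐ[k] K₀) (φ₁ : R →ₐ[k] K₁) :
    (D.sec K₀ (pb (baseChangeSnd c (affHom φ₀)) N)).chi =
      (D.sec K₁ (pb (baseChangeSnd c (affHom φ₁)) N)).chi :=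
  chi_eq_of_preconnected S (D.sec R N) (D.inv R N hN) φ₀ φ₁ _ _ (D.bc R K₀ φ₀ N hN)
    (D.bc R K₁ φ₁ N hN)

end Fermat.Agent.S25.Z2
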