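/-
S25 / block Z2, node Z2-E: the scheme `Spec (K ⊗[k] F)` over `Spec K`.
-/
import Fermat.Agent.S25.Z.AlgEquiv.Pb

set_option autoImplicit false

universe u

open CategoryTheory CategoryTheory.Limits AlgebraicGeometry AlgebraicGeometry.RelPicard
  NeronModelInfra GoodReductionJacobian
open scoped TensorProduct

namespace Fermat.Agent.S25.Z2

open Triple

variable {k : Type u} [Field k]

/-- `Spec (K ⊗[k] F) ⟶ Spec K` -/
noncomputable abbrev famHom (K F : Type u) [Field K] [Algebra k K] [CommRing F] [Algebra k F] :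
    Spec (CommRingCat.of (K ⊗[k] F)) ⟶ Spec (CommRingCat.of K) :=
  Spec.map (CommRingCat.ofHom (algebraMap K (K ⊗[k] F)))

theorem famHom_locallyOfFiniteType (K F : Type u) [Field K] [Algebra k K] [CommRing F]
    [Algebra k F] (hF : Algebra.FiniteType k F) : LocallyOfFiniteType (famHom (k := k) K F) := by
  rw [HasRingHomProperty.Spec_iff (P := @LocallyOfFiniteType)]
  have : Algebra.FiniteType K (K ⊗[k] F) := inferInstance
  exact (RingHom.finiteType_algebraMap).2 this

theorem famHom_geometricallyIntegral (K F : Type u) [Field K] [Algebra k K] [CommRing F]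
    [Algebra k F] (hF : ∀ (K' : Type u) [Field K'] [Algebra k K'], IsDomain (K' ⊗[k] F)) :
    GeometricallyIntegral (famHom (k := k) K F) := by
  refine ⟨?_⟩
  rw [geometrically_iff_of_commRing]
  intro K' _ _ Y fst snd hpb
  let _ : Algebra k K' := Algebra.compHom K' (algebraMap k K)
  have : IsScalarTower k K K' := IsScalarTower.of_algebraMap_eq (fun _ => rfl)
  have hdom : IsDomain (K' ⊗[k] F) := hF K'
  let e : (K ⊗[k] F) ⊗[K] K' ≃+* K' ⊗[k] F :=
    ((Algebra.TensorProduct.comm K (K ⊗[k] F) K').trans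
      (Algebra.TensorProduct.cancelBaseChange k K K K' F)).toRingEquiv
  have hdom' : IsDomain ((K ⊗[k] F) ⊗[K] K') := e.isDomain_iff.2 hdom
  have : IsIntegral (Spec (CommRingCat.of ((K ⊗[k] F) ⊗[K] K'))) := inferInstance
  exact IsIntegral.of_isIso ((pullbackSpecIso K (K ⊗[k] F) K').symm ≪≫ hpb.isoPullback.symm).hom

/-- the section of `famHom` defined by a `K`-point of `F` -/
noncomputable def famPt {K F : Type u} [Field K] [Algebra k K] [CommRing F] [Algebra k F]
    (φ : F →ₐ[k] K) : SchemeHomOver (𝟙 (Spec (CommRingCat.of K))) (famHom (k := k) K F) :=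
  ⟨Spec.map (CommRingCat.ofHom
      (Algebra.TensorProduct.lift (AlgHom.id K K) φ (fun _ _ => Commute.all _ _)).toRingHom), by
    rw [← Spec.map_comp, ← CommRingCat.ofHom_comp, ← Spec.map_id]
    congr 1
    ext x
    simp⟩

/-- the projection `Spec (K ⊗[k] F) ⟶ Spec F` -/
noncomputable abbrev famPr (K F : Type u) [Field K] [Algebra k K] [CommRing F] [Algebra k F] :
    Spec (CommRingCat.of (K ⊗[k] F)) ⟶ Spec (CommRingCat.of F) :=
  Spec.map (CommRingCat.ofHom
    (Algebra.TensorProduct.includeRight (R := k) (A := K) (B := F)).toRingHom)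

theorem famPt_famPr {K F : Type u} [Field K] [Algebra k K] [CommRing F] [Algebra k F]
    (φ : F →ₐ[k] K) : (famPt φ).1 ≫ famPr K F = (affHom φ).1 := by
  simp only [famPt, affHom]
  rw [← Spec.map_comp, ← CommRingCat.ofHom_comp]
  congr 2
  ext x
  simp

theorem famPr_sp (K F : Type u) [Field K] [Algebra k K] [CommRing F] [Algebra k F] :
    famPr (k := k) K F ≫ sp k F = famHom K F ≫ sp k K := by
  rw [← Spec.map_comp, ← CommRingCat.ofHom_comp, ← Spec.map_comp, ← CommRingCat.ofHom_comp]
  congr 2
  ext x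
  simp [Algebra.TensorProduct.algebraMap_apply, Algebra.TensorProduct.tmul_one_eq_one_tmul]

end Fermat.Agent.S25.Z2
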