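/-
S25 / block Z2, node Z2-G: degree zero implies algebraic equivalence to zero.
Owner: helper285.
-/
import Fermat.Agent.S25.Z.AlgEquiv.AlgOfHom
import Fermat.Agent.S25.Z.AlgEquiv.Dict
import Fermat.Agent.S25.Z.AlgEquiv.FamScheme

set_option autoImplicit false
set_option linter.unusedSimpArgs false

universe u

open CategoryTheory CategoryTheory.Limits AlgebraicGeometry AlgebraicGeometry.RelPicard
  NeronModelInfra GoodReductionJacobian
open scoped TensorProduct

namespace Fermat.Agent.S25.Z2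

open Triple

variable {k : Type u} [Field k]

variable {C : Scheme.{u}} {c : C ⟶ Spec (CommRingCat.of k)}
  {ε : SchemeHomOver (𝟙 (Spec (CommRingCat.of k))) c} {G : GeomCharts c ε} (D : Dictionary G)
  (S : AlgSpec G.𝔠)

section Maps

variable {A K F : Type u} [CommRing A] [Algebra k A] [Field K] [Algebra k K] [CommRing F]
  [Algebra k F] (φ : A →ₐ[k] K)

variable (c) in
/-- `(C ×ₖ Spec A) ×_A Spec K ⟶ C ×ₖ Spec K` -/
noncomputable def fromFibre :
    pullback (pullback.snd c (sp k A)) (affHom φ).1 ⟶ pullback c (sp k K) :=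
  pullback.lift (pullback.fst _ _ ≫ pullback.fst _ _) (pullback.snd _ _)
    (by
      rw [Category.assoc, pullback.condition, ← Category.assoc, pullback.condition,
        Category.assoc, (affHom φ).2])

theorem fromFibre_baseChangeSnd :
    fromFibre c φ ≫ baseChangeSnd c (affHom φ) =
      pullback.fst (pullback.snd c (sp k A)) (affHom φ).1 := by
  apply pullback.hom_ext
  · simp only [fromFibre, baseChangeSnd, Category.assoc, pullback.lift_fst, pullback.lift_snd,
      pullback.lift_fst_assoc, pullback.lift_snd_assoc, Category.comp_id, Category.id_comp]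
  · simp only [fromFibre, baseChangeSnd, Category.assoc, pullback.lift_fst, pullback.lift_snd,
      pullback.lift_fst_assoc, pullback.lift_snd_assoc, Category.comp_id, Category.id_comp,
      pullback.condition]

variable (c F) in
/-- `((C ×ₖ Spec A) ×_A Spec K) ×_K Spec (K ⊗ F) ⟶ C ×ₖ Spec F` -/
noncomputable def fromFibreProd :
    pullback (fibreAt c (sp k A) (affHom φ).1) (famHom (k := k) K F) ⟶ pullback c (sp k F) :=
  pullback.lift (pullback.fst _ _ ≫ pullback.fst _ _ ≫ pullback.fst _ _)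
    (pullback.snd _ _ ≫ famPr K F)
    (by
      have h1 : pullback.fst c (sp k A) ≫ c = pullback.snd c (sp k A) ≫ sp k A :=
        pullback.condition
      have h2 : pullback.fst (pullback.snd c (sp k A)) (affHom φ).1 ≫ pullback.snd c (sp k A) =
          fibreAt c (sp k A) (affHom φ).1 ≫ (affHom φ).1 := pullback.condition
      have h3 : pullback.fst (fibreAt c (sp k A) (affHom φ).1) (famHom (k := k) K F) ≫
          fibreAt c (sp k A) (affHom φ).1 = pullback.snd _ _ ≫ famHom (k := k) K F :=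
        pullback.condition
      have h4 : (affHom φ).1 ≫ sp k A = sp k K := (affHom φ).2
      simp only [Category.assoc, h1, reassoc_of% h2, h4, reassoc_of% h3, famPr_sp])

theorem baseChangeSnd_fromFibreProd (φ' : F →ₐ[k] K) :
    baseChangeSnd (fibreAt c (sp k A) (affHom φ).1) (famPt φ') ≫ fromFibreProd c F φ =
      pullback.fst _ _ ≫ fromFibre c φ ≫ baseChangeSnd c (affHom φ') := by
  have h3 : pullback.fst (fibreAt c (sp k A) (affHom φ).1) (𝟙 _) ≫
      pullback.snd (pullback.snd c (sp k A)) (affHom φ).1 = pullback.snd _ _ := by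
    have := pullback.condition (f := fibreAt c (sp k A) (affHom φ).1) (g := 𝟙 _)
    rwa [Category.comp_id] at this
  apply pullback.hom_ext
  · simp only [fromFibre, fromFibreProd, baseChangeSnd, Category.assoc, pullback.lift_fst,
      pullback.lift_snd, pullback.lift_fst_assoc, pullback.lift_snd_assoc, Category.comp_id,
      Category.id_comp]
  · simp only [fromFibre, fromFibreProd, baseChangeSnd, Category.assoc, pullback.lift_fst,
      pullback.lift_snd, pullback.lift_fst_assoc, pullback.lift_snd_assoc, Category.comp_id,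
      Category.id_comp, famPt_famPr, reassoc_of% h3]

end Maps

include S in
/-- Z2-G1: a `Pic⁰` line bundle over an algebraically closed field is algebraically equivalent
to zero. -/
theorem isAlgEquivZero_of_isPic0 {A : Type u} [CommRing A] [Algebra k A]
    (L : (pullback c (sp k A)).Modules) (hL : Scheme.Modules.IsInvertible L)
    (K : Type u) [Field K] [IsAlgClosed K] [Algebra k K] (φ : A →ₐ[k] K)
    (h : (D.sec K (pb (baseChangeSnd c (affHom φ)) L)).IsPic0) :
    IsAlgEquivZero (fibreAt c (sp k A) (affHom φ).1)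
      (pb (pullback.fst (pullback.snd c (sp k A)) (affHom φ).1) L) := by
  let _ := S.famCommRing
  let _ := S.famAlg
  obtain ⟨𝓕, h𝓕, ⟨e𝓕⟩⟩ := D.ess_surj S.famRing S.fam S.fam_pic0.inv
  obtain ⟨φ₁, ⟨b₁⟩⟩ := S.fam_surj K _ h
  obtain ⟨φ₀, ⟨b₀⟩⟩ := S.fam_surj K (Triple.unit G.𝔠 K) (unit_isPic0 S K)
  obtain ⟨eu⟩ := D.unit K
  have i₀ : Nonempty (pb (baseChangeSnd c (affHom φ₀)) 𝓕 ≅ 𝒪 _) :=
    iso_of_isBC D S φ₀ (D.sec S.famRing 𝓕) (pb_isInvertible _ h𝓕)
      (Scheme.Modules.isInvertible_unit _) (D.bc _ _ φ₀ 𝓕 h𝓕) ⟨(b₀.ofIsoLeft e𝓕).ofIso eu.symm⟩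
  have i₁ : Nonempty (pb (baseChangeSnd c (affHom φ₁)) 𝓕 ≅ pb (baseChangeSnd c (affHom φ)) L) :=
    iso_of_isBC D S φ₁ (D.sec S.famRing 𝓕) (pb_isInvertible _ h𝓕)
      (pb_isInvertible _ hL) (D.bc _ _ φ₁ 𝓕 h𝓕) ⟨b₁.ofIsoLeft e𝓕⟩
  have key : ∀ φ' : S.famRing →ₐ[k] K,
      Nonempty (pb (baseChangeSnd (fibreAt c (sp k A) (affHom φ).1) (famPt φ'))
        (pb (fromFibreProd c S.famRing φ) 𝓕) ≅
        pb (pullback.fst _ _) (pb (fromFibre c φ) (pb (baseChangeSnd c (affHom φ')) 𝓕))) :=
    fun φ' => iso_trans (pb_triangle (baseChangeSnd_fromFibreProd φ φ') 𝓕)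
      (iso_trans (iso_symm (pb_comp _ _ 𝓕)) (pb_map _ (iso_symm (pb_comp _ _ 𝓕))))
  refine ⟨_, famHom (k := k) K S.famRing, famHom_locallyOfFiniteType K _ S.fam_ft,
    famHom_geometricallyIntegral K _ S.fam_geomIntegral, pb (fromFibreProd c S.famRing φ) 𝓕,
    pb_isInvertible _ h𝓕, famPt φ₀, famPt φ₁, ?_, ?_⟩
  · exact iso_trans (key φ₀) (iso_trans (pb_map _ (iso_trans (pb_map _ i₀) (pb_unit _)))
      (pb_unit _))
  · exact iso_trans (key φ₁) (pb_map _ (iso_trans (pb_map _ i₁)
      (pb_triangle (fromFibre_baseChangeSnd φ) L)))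

include S in
/-- Z2-G2 -/
theorem fibrewiseAlgEquivZero_of_deg0 (A : Type u) [CommRing A] [Algebra k A]
    (M : RigidifiedLineBundle c ε (sp k A)) (h : (D.sec A M.L).Deg0) :
    FibrewiseAlgEquivZero M := by
  intro K _ _ s
  obtain ⟨inst, φ, rfl⟩ := exists_algebra_affHom (k := k) K s
  exact isAlgEquivZero_of_isPic0 D S M.L M.isInvertible K φ
    (S.bc_pic0 A K φ _ _ (D.bc A K φ M.L M.isInvertible)
      ⟨D.inv A _ M.isInvertible, (D.rigid_iff A _ M.isInvertible).1 M.rigidified, h⟩)

end Fermat.Agent.S25.Z2
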