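/-
S25 / block Z2, node Z2-D: the family lemma (the Euler characteristic of the fibres of an
invertible sheaf on `C × Y` is constant when `Y` is integral).  Owner: helper106.
-/
import Fermat.Agent.S25.Z.AlgEquiv.AlgOfHom
import Fermat.Agent.S25.Z.AlgEquiv.Dict

set_option autoImplicit false

universe u

open CategoryTheory CategoryTheory.Limits AlgebraicGeometry AlgebraicGeometry.RelPicard
  NeronModelInfra GoodReductionJacobian
open scoped TensorProduct

namespace Fermat.Agent.S25.Z2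

open Triple

variable {k : Type u} [Field k]

variable {C : Scheme.{u}} {c : C ⟶ Spec (CommRingCat.of k)}
  {ε : SchemeHomOver (𝟙 (Spec (CommRingCat.of k))) c} {G : GeomCharts c ε} (D : Dictionary G)
  (S : AlgSpec G.𝔠)

/-- a field-valued point which factors through an affine scheme `Spec R ⟶ Y` -/
theorem chi_sec_factor {Y : Scheme.{u}} (y : Y ⟶ Spec (CommRingCat.of k))
    (N : (pullback c y).Modules) (hN : Scheme.Modules.IsInvertible N)
    {R : Type u} [CommRing R] [Algebra k R] (v : SchemeHomOver (sp k R) y)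
    {K : Type u} [Field K] [Algebra k K] (p : SchemeHomOver (sp k K) y)
    (q : Spec (CommRingCat.of K) ⟶ Spec (CommRingCat.of R)) (hq : q ≫ v.1 = p.1) :
    ∃ φ : R →ₐ[k] K, (D.sec K (pb (baseChangeSnd c p) N)).chi =
      (D.sec K (pb (baseChangeSnd c (affHom φ)) (pb (baseChangeSnd c v) N))).chi := by
  have hq' : q ≫ sp k R = sp k K := by
    rw [← v.2, ← Category.assoc, hq, p.2]
  obtain ⟨φ, hφ⟩ := exists_affHom' q hq'
  refine ⟨φ, ?_⟩
  have hcomp : baseChangeSnd c (affHom φ) ≫ baseChangeSnd c v = baseChangeSnd c p := by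
    rw [baseChangeSnd_comp]
    congr 1
    apply Subtype.ext
    change (affHom φ).1 ≫ v.1 = p.1
    rw [hφ, hq]
  exact (chi_sec_congr D
    (pb_isInvertible _ (pb_isInvertible _ hN)) (pb_isInvertible _ hN) (pb_triangle hcomp N)).symm

include S in
/-- two field-valued points which factor through the same connected affine scheme -/
theorem chi_family_factor {Y : Scheme.{u}} (y : Y ⟶ Spec (CommRingCat.of k))
    (N : (pullback c y).Modules) (hN : Scheme.Modules.IsInvertible N)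
    (R : Type u) [CommRing R] [PreconnectedSpace (PrimeSpectrum R)]
    (w : Spec (CommRingCat.of R) ⟶ Y)
    {K₀ K₁ : Type u} [Field K₀] [Algebra k K₀] [Field K₁] [Algebra k K₁]
    (p₀ : SchemeHomOver (sp k K₀) y) (p₁ : SchemeHomOver (sp k K₁) y)
    (q₀ : Spec (CommRingCat.of K₀) ⟶ Spec (CommRingCat.of R)) (hq₀ : q₀ ≫ w = p₀.1)
    (q₁ : Spec (CommRingCat.of K₁) ⟶ Spec (CommRingCat.of R)) (hq₁ : q₁ ≫ w = p₁.1) :
    (D.sec K₀ (pb (baseChangeSnd c p₀) N)).chi = (D.sec K₁ (pb (baseChangeSnd c p₁) N)).chi := by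
  obtain ⟨inst, hsp⟩ := exists_algebra_of_hom (k := k) R (w ≫ y)
  let := inst
  let v : SchemeHomOver (sp k R) y := ⟨w, hsp.symm⟩
  obtain ⟨φ₀, h₀⟩ := chi_sec_factor D y N hN v p₀ q₀ hq₀
  obtain ⟨φ₁, h₁⟩ := chi_sec_factor D y N hN v p₁ q₁ hq₁
  rw [h₀, h₁]
  exact chi_family_affine D S _ (pb_isInvertible _ hN) φ₀ φ₁

include S in
/-- two field-valued points in the same affine open -/
theorem chi_family_local {Y : Scheme.{u}} [IsIntegral Y] (y : Y ⟶ Spec (CommRingCat.of k))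
    (N : (pullback c y).Modules) (hN : Scheme.Modules.IsInvertible N)
    (U : Y.Opens) (hU : IsAffineOpen U)
    {K₀ K₁ : Type u} [Field K₀] [Algebra k K₀] [Field K₁] [Algebra k K₁]
    (p₀ : SchemeHomOver (sp k K₀) y) (p₁ : SchemeHomOver (sp k K₁) y)
    (h₀ : Set.range p₀.1.base ⊆ U) (h₁ : Set.range p₁.1.base ⊆ U) :
    (D.sec K₀ (pb (baseChangeSnd c p₀) N)).chi = (D.sec K₁ (pb (baseChangeSnd c p₁) N)).chi := by
  have hne : Nonempty U := by
    let x : Spec (CommRingCat.of K₀) := (default : PrimeSpectrum K₀)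
    exact ⟨⟨p₀.1.base x, h₀ ⟨x, rfl⟩⟩⟩
  have hdom : IsDomain Γ(Y, U) := inferInstance
  have hconn : PreconnectedSpace (PrimeSpectrum Γ(Y, U)) := inferInstance
  have r₀ : Set.range p₀.1 ⊆ Set.range hU.fromSpec := by
    rw [hU.range_fromSpec]; exact h₀
  have r₁ : Set.range p₁.1 ⊆ Set.range hU.fromSpec := by
    rw [hU.range_fromSpec]; exact h₁
  exact chi_family_factor D S y N hN Γ(Y, U) hU.fromSpec p₀ p₁
    (IsOpenImmersion.lift hU.fromSpec p₀.1 r₀) (IsOpenImmersion.lift_fac _ _ _)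
    (IsOpenImmersion.lift hU.fromSpec p₁.1 r₁) (IsOpenImmersion.lift_fac _ _ _)

include S in
/-- two field-valued points in two affine opens which share a third field-valued point -/
theorem chi_family_chain {Y : Scheme.{u}} [IsIntegral Y] (y : Y ⟶ Spec (CommRingCat.of k))
    (N : (pullback c y).Modules) (hN : Scheme.Modules.IsInvertible N)
    (U₀ U₁ : Y.Opens) (hU₀ : IsAffineOpen U₀) (hU₁ : IsAffineOpen U₁)
    {K₀ K₁ : Type u} [Field K₀] [Algebra k K₀] [Field K₁] [Algebra k K₁]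
    (p₀ : SchemeHomOver (sp k K₀) y) (p₁ : SchemeHomOver (sp k K₁) y)
    (h₀ : Set.range p₀.1.base ⊆ U₀) (h₁ : Set.range p₁.1.base ⊆ U₁)
    (κ : Type u) [Field κ] (pz : Spec (CommRingCat.of κ) ⟶ Y)
    (hz₀ : Set.range pz.base ⊆ U₀) (hz₁ : Set.range pz.base ⊆ U₁) :
    (D.sec K₀ (pb (baseChangeSnd c p₀) N)).chi = (D.sec K₁ (pb (baseChangeSnd c p₁) N)).chi := by
  obtain ⟨inst, hsp⟩ := exists_algebra_of_hom (k := k) κ (pz ≫ y)
  let := inst
  let p : SchemeHomOver (sp k κ) y := ⟨pz, hsp.symm⟩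
  exact (chi_family_local D S y N hN U₀ hU₀ p₀ p h₀ hz₀).trans
    (chi_family_local D S y N hN U₁ hU₁ p p₁ hz₁ h₁)

include S in
/-- the family lemma -/
theorem chi_family {Y : Scheme.{u}} [IsIntegral Y] (y : Y ⟶ Spec (CommRingCat.of k))
    (N : (pullback c y).Modules) (hN : Scheme.Modules.IsInvertible N)
    {K₀ K₁ : Type u} [Field K₀] [Algebra k K₀] [Field K₁] [Algebra k K₁]
    (p₀ : SchemeHomOver (sp k K₀) y) (p₁ : SchemeHomOver (sp k K₁) y) :
    (D.sec K₀ (pb (baseChangeSnd c p₀) N)).chi = (D.sec K₁ (pb (baseChangeSnd c p₁) N)).chi := by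
  let x₀ : Spec (CommRingCat.of K₀) := (default : PrimeSpectrum K₀)
  let x₁ : Spec (CommRingCat.of K₁) := (default : PrimeSpectrum K₁)
  obtain ⟨U₀, hU₀, hx₀, -⟩ := exists_isAffineOpen_mem_and_subset
    (X := Y) (x := p₀.1.base x₀) (U := ⊤) trivial
  obtain ⟨U₁, hU₁, hx₁, -⟩ := exists_isAffineOpen_mem_and_subset
    (X := Y) (x := p₁.1.base x₁) (U := ⊤) trivial
  have h₀ : Set.range p₀.1.base ⊆ U₀ := by
    rintro _ ⟨x, rfl⟩
    have : x = x₀ := Subsingleton.elim (α := PrimeSpectrum K₀) x x₀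
    rw [this]; exact hx₀
  have h₁ : Set.range p₁.1.base ⊆ U₁ := by
    rintro _ ⟨x, rfl⟩
    have : x = x₁ := Subsingleton.elim (α := PrimeSpectrum K₁) x x₁
    rw [this]; exact hx₁
  obtain ⟨z, hz₀, hz₁⟩ := nonempty_preirreducible_inter U₀.isOpen U₁.isOpen ⟨_, hx₀⟩ ⟨_, hx₁⟩
  have hr : Set.range (Y.fromSpecResidueField z) = {z} := Y.range_fromSpecResidueField z
  refine chi_family_chain D S y N hN U₀ U₁ hU₀ hU₁ p₀ p₁ h₀ h₁ (Y.residueField z)
    (Y.fromSpecResidueField z) ?_ ?_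
  · intro t ht
    have : t ∈ ({z} : Set Y) := hr ▸ ht
    rw [Set.mem_singleton_iff.1 this]; exact hz₀
  · intro t ht
    have : t ∈ ({z} : Set Y) := hr ▸ ht
    rw [Set.mem_singleton_iff.1 this]; exact hz₁

end Fermat.Agent.S25.Z2
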