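/-
S25 / block Z2, node Z2-F: algebraic equivalence to zero implies degree zero.
Owner: helper285.
-/
import Fermat.Agent.S25.Z.AlgEquiv.Family

set_option autoImplicit false
set_option linter.unusedSimpArgs false

universe u

open CategoryTheory CategoryTheory.Limits AlgebraicGeometry AlgebraicGeometry.RelPicard
  NeronModelInfra GoodReductionJacobian
open scoped TensorProduct

namespace Fermat.Agent.S25.Z2

open Triple

variable {k : Type u} [Field k]

variable {C : Scheme.{u}} {c : C ⟶ Spec (CommRingCat.of k)}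
  {ε : SchemeHomOver (𝟙 (Spec (CommRingCat.of k))) c} {G : GeomCharts c ε} (D : Dictionary G)
  (S : AlgSpec G.𝔠)

section Maps

variable {A K : Type u} [CommRing A] [Algebra k A] [Field K] [Algebra k K] (φ : A →ₐ[k] K)
  {T' : Scheme.{u}} (h : T' ⟶ Spec (CommRingCat.of K)) (y : T' ⟶ Spec (CommRingCat.of k))
  (hy : h ≫ sp k K = y)

variable (c) in
/-- `C ×ₖ T' ⟶ (C ×ₖ Spec A) ×_A Spec K` -/
noncomputable def toFibre : pullback c y ⟶ pullback (pullback.snd c (sp k A)) (affHom φ).1 :=
  pullback.lift
    (pullback.lift (pullback.fst c y) (pullback.snd c y ≫ h ≫ (affHom φ).1)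
      (by rw [pullback.condition, ← hy]; simp only [Category.assoc, (affHom φ).2]))
    (pullback.snd c y ≫ h)
    (by rw [pullback.lift_snd, Category.assoc])

variable (c) in
/-- `C ×ₖ T' ⟶ ((C ×ₖ Spec A) ×_A Spec K) ×_K T'` -/
noncomputable def toFibreProd : pullback c y ⟶ pullback (fibreAt c (sp k A) (affHom φ).1) h :=
  pullback.lift (toFibre c φ h y hy) (pullback.snd c y)
    (by rw [fibreAt, toFibre, pullback.lift_snd])

/-- a section of `h`, as a `K`-point of `T'` over `k` -/
def sectionOver (t : SchemeHomOver (𝟙 (Spec (CommRingCat.of K))) h) :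
    SchemeHomOver (sp k K) y :=
  ⟨t.1, by rw [← hy, ← Category.assoc, t.2, Category.id_comp]⟩

theorem baseChangeSnd_toFibreProd (t : SchemeHomOver (𝟙 (Spec (CommRingCat.of K))) h) :
    baseChangeSnd c (sectionOver h y hy t) ≫ toFibreProd c φ h y hy =
      toFibreProd c φ (𝟙 _) (sp k K) (Category.id_comp _) ≫
        baseChangeSnd (fibreAt c (sp k A) (affHom φ).1) t := by
  have ht : t.1 ≫ h = 𝟙 _ := t.2
  apply pullback.hom_ext
  · apply pullback.hom_ext
    · apply pullback.hom_ext
      · simp only [toFibreProd, toFibre, baseChangeSnd, sectionOver, fibreAt, Category.assoc,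
          pullback.lift_fst, pullback.lift_snd, pullback.lift_fst_assoc, pullback.lift_snd_assoc,
          Category.comp_id, Category.id_comp]
      · simp only [toFibreProd, toFibre, baseChangeSnd, sectionOver, fibreAt, Category.assoc,
          pullback.lift_fst, pullback.lift_snd, pullback.lift_fst_assoc, pullback.lift_snd_assoc,
          Category.comp_id, Category.id_comp, reassoc_of% ht]
    · simp only [toFibreProd, toFibre, baseChangeSnd, sectionOver, fibreAt, Category.assoc,
        pullback.lift_fst, pullback.lift_snd, pullback.lift_fst_assoc, pullback.lift_snd_assoc,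
        Category.comp_id, Category.id_comp, ht]
  · simp only [toFibreProd, toFibre, baseChangeSnd, sectionOver, fibreAt, Category.assoc,
      pullback.lift_fst, pullback.lift_snd, pullback.lift_fst_assoc, pullback.lift_snd_assoc,
      Category.comp_id, Category.id_comp]

theorem toFibreProd_fst_fst :
    toFibreProd c φ (𝟙 _) (sp k K) (Category.id_comp _) ≫
      pullback.fst (fibreAt c (sp k A) (affHom φ).1) (𝟙 _) ≫
        pullback.fst (pullback.snd c (sp k A)) (affHom φ).1 = baseChangeSnd c (affHom φ) := by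
  apply pullback.hom_ext <;>
    simp only [toFibreProd, toFibre, baseChangeSnd, fibreAt, Category.assoc,
      pullback.lift_fst, pullback.lift_snd, pullback.lift_fst_assoc, pullback.lift_snd_assoc,
      Category.comp_id, Category.id_comp]

end Maps

include S in
/-- Z2-F1: algebraic equivalence to zero on a fibre implies degree zero. -/
theorem chi_of_isAlgEquivZero {A : Type u} [CommRing A] [Algebra k A]
    (L : (pullback c (sp k A)).Modules) (hL : Scheme.Modules.IsInvertible L)
    (K : Type u) [Field K] [Algebra k K] (φ : A →ₐ[k] K)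
    (h : IsAlgEquivZero (fibreAt c (sp k A) (affHom φ).1)
      (pb (pullback.fst (pullback.snd c (sp k A)) (affHom φ).1) L)) :
    (D.sec K (pb (baseChangeSnd c (affHom φ)) L)).chi = (Triple.unit G.𝔠 K).chi := by
  obtain ⟨T', h, hft, hgi, M, hM, t₀, t₁, e₀, e₁⟩ := h
  have : IsIntegral T' := GeometricallyIntegral.isIntegral_of_subsingleton h
  set j := toFibreProd c φ h (h ≫ sp k K) rfl with hj
  set j1 := toFibreProd c φ (𝟙 _) (sp k K) (Category.id_comp _) with hj1
  have hN : Scheme.Modules.IsInvertible (pb j M) := pb_isInvertible j hM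
  have key := chi_family D S (h ≫ sp k K) (pb j M) hN (sectionOver h _ rfl t₀)
    (sectionOver h _ rfl t₁)
  have i₀ : Nonempty (pb (baseChangeSnd c (sectionOver h _ rfl t₀)) (pb j M) ≅ 𝒪 _) :=
    iso_trans (pb_square (baseChangeSnd_toFibreProd φ h _ rfl t₀) M)
      (iso_trans (pb_map j1 e₀) (pb_unit j1))
  have i₁ : Nonempty (pb (baseChangeSnd c (sectionOver h _ rfl t₁)) (pb j M) ≅
      pb (baseChangeSnd c (affHom φ)) L) :=
    iso_trans (pb_square (baseChangeSnd_toFibreProd φ h _ rfl t₁) M)
      (iso_trans (pb_map j1 e₁)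
        (iso_trans (pb_map j1 (pb_comp _ _ L)) (pb_triangle (toFibreProd_fst_fst φ) L)))
  rw [chi_sec_congr D (pb_isInvertible _ hN) (Scheme.Modules.isInvertible_unit _) i₀,
    chi_sec_congr D (pb_isInvertible _ hN) (pb_isInvertible _ hL) i₁, chi_sec_unit] at key
  exact key.symm

include S in
/-- Z2-F2 -/
theorem deg0_of_fibrewiseAlgEquivZero (A : Type u) [CommRing A] [Algebra k A]
    (M : RigidifiedLineBundle c ε (sp k A)) (h : FibrewiseAlgEquivZero M) :
    (D.sec A M.L).Deg0 := by
  intro K _ _ φ TK hTK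
  let ι : K →ₐ[k] AlgebraicClosure K := IsScalarTower.toAlgHom k K (AlgebraicClosure K)
  have hLK : Scheme.Modules.IsInvertible (pb (baseChangeSnd c (affHom φ)) M.L) :=
    pb_isInvertible _ M.isInvertible
  -- replace `TK` by the triple of the fibre
  obtain ⟨e⟩ := S.bc_unique A K φ _ _ _ hTK (D.bc A K φ M.L M.isInvertible)
  rw [e.chi_eq]
  -- extend scalars to the algebraic closure
  obtain ⟨Tb, ⟨hTb⟩⟩ := S.exists_bc K (AlgebraicClosure K) ι
    (D.sec K (pb (baseChangeSnd c (affHom φ)) M.L))
  have h1 : Tb.chi = (D.sec K (pb (baseChangeSnd c (affHom φ)) M.L)).chi :=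
    chi_eq_of_field S ι _ (D.inv K _ hLK) Tb ⟨hTb⟩
  obtain ⟨hbc⟩ := D.bc A K φ M.L M.isInvertible
  obtain ⟨e'⟩ := S.bc_unique A (AlgebraicClosure K) (ι.comp φ) _ _ _ ⟨hbc.comp hTb⟩
    (D.bc A (AlgebraicClosure K) (ι.comp φ) M.L M.isInvertible)
  have h2 := chi_of_isAlgEquivZero D S M.L M.isInvertible (AlgebraicClosure K) (ι.comp φ)
    (h (AlgebraicClosure K) (affHom (ι.comp φ)).1)
  rw [← h1, e'.chi_eq, h2, chi_unit S, chi_unit S K]

end Fermat.Agent.S25.Z2
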